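import Fermat.Agent.BAD.NewRep.Main
import Fermat.Agent.Assembly.Residual

/-!
# A newform congruent to a curve at a prime of its level where the curve has good reduction
-/

set_option autoImplicit false

noncomputable section

open scoped MatrixGroups TensorProduct
open CongruenceSubgroup IsLocalRing ModularFormClass Polynomial

namespace FermatAgent.Assembly

open Lifting (charZC)

local notation "GQ" => AlgebraicClosure ℚ ≃ₐ[ℚ] AlgebraicClosure ℚ

/-- **A newform congruent to a curve with good reduction at a prime `q` of its level forces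
`a_q(E) ≡ ± (q + 1)`.** -/
theorem newFrobenius (W : WeierstrassCurve ℤ) (p N q : ℕ) (g : CuspForm (Gamma0 N) 2)
    (𝔪 : Ideal ZC) (hΔ : W.Δ ≠ 0) (hp : p.Prime)
    (hnew : g.IsNewform) (hsq : Squarefree N) (hq : q.Prime) (hqp : q ≠ p) (hqN : q ∣ N)
    (hgood : W.IsGoodPrimeFor q) (hc : Congr W p N g 𝔪) :
    (p : ℤ) ∣ W.apOfModel q ^ 2 - ((q : ℤ) + 1) ^ 2 := by
  classical
  have : Fact p.Prime := ⟨hp⟩
  have : NeZero N := ⟨hsq.ne_zero⟩
  obtain ⟨hg, hmax, hmem, hcong⟩ := hc
  have := hmax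
  let : Field (ZC ⧸ 𝔪) := Ideal.Quotient.field 𝔪
  have := charP_quotient hp hmax hmem
  -- the values of the eigensystem
  have hfin : Module.Finite ℤ (CuspForm.heckeAlgebra N 2 ∅) := MF.moduleFinite_heckeAlgebra N 2 ∅
  set R := (charZC hg).range
  let π : CuspForm.heckeAlgebra N 2 ∅ →+* R := (charZC hg).rangeRestrict
  have : Module.Finite ℤ R := Module.Finite.of_surjective π.toAddMonoidHom.toIntLinearMap
    (charZC hg).rangeRestrict_surjective
  have : Module.Free ℤ R := inferInstance
  have : IsAlgClosed (ZC ⧸ 𝔪) := ES.isAlgClosed_quotient_integralClosure 𝔪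
  obtain ⟨B, _, _, _, _, _, _, ι, χR, ε, hpm, hε⟩ :=
    ES.exists_point_lifting p ((Ideal.Quotient.mk 𝔪).comp R.subtype)
  have hχmem : ∀ r : R, (r : ZC) ∈ 𝔪 → χR r ∈ maximalIdeal B := fun r hr => by
    rw [← residue_eq_zero_iff, ← map_eq_zero ε, hε]
    exact Ideal.Quotient.eq_zero_iff_mem.mpr hr
  have hinj : Function.Injective χR := by
    rw [RingHom.injective_iff_ker_eq_bot]
    have : (RingHom.ker χR).IsPrime := RingHom.ker_isPrime _
    refine Ideal.eq_bot_of_comap_eq_bot (R := ℤ) (eq_bot_iff.mpr fun x hx => ?_)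
    rw [Ideal.mem_comap, RingHom.mem_ker, eq_intCast, map_intCast, Int.cast_eq_zero] at hx
    exact hx
  set χ : CuspForm.heckeAlgebra N 2 ∅ →+* B := χR.comp π
  -- the embedding of the algebraic integers
  set K := AlgebraicClosure (FractionRing B)
  have hjinj : Function.Injective (algebraMap B K) := by
    rw [IsScalarTower.algebraMap_eq B (FractionRing B) K]
    exact (algebraMap (FractionRing B) K).injective.comp (IsFractionRing.injective B _)
  have : CharZero K := charZero_of_injective_algebraMap hjinj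
  let : Algebra R ZC := R.subtype.toAlgebra
  have : Algebra.IsIntegral R ZC := Algebra.IsIntegral.tower_top (R := ℤ)
  obtain ⟨σ, hσ⟩ := ES.exists_ringHom_extend (A := R) (B := ZC) Subtype.val_injective
    ((algebraMap B K).comp χR)
  have hχ : ∀ t, algebraMap B K (χ t) = σ (charZC hg t) := fun t =>
    (RingHom.congr_fun hσ (π t)).symm
  -- comparison of residual representations
  have : CharP (ResidueField B) p := (CharP.charP_iff_prime_eq_zero hp).mpr (by
    rw [← map_natCast (residue B)]; exact (residue_eq_zero_iff _).mpr hpm)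
  set ρ₁ := (ES.eigRep ι χ hpm).residual
  have hρ₁ : ∀ σ : GQ, LinearMap.charpoly (ρ₁.ρ σ) =
      (LinearMap.charpoly (ES.eigEnd ι χ σ)).map (residue B) := fun σ => by
    show LinearMap.charpoly ((ES.eigEnd ι χ σ).baseChange (ResidueField B)) = _
    rw [LinearMap.charpoly_baseChange]
    rfl
  have key : ∀ s, LinearMap.charpoly (ρ₁.ρ s) =
      LinearMap.charpoly ((torRepK W hΔ p (ResidueField B)).ρ s) := by
    refine GaloisBasic.residual_charpoly_eq_of_frobenius ρ₁ (torRepK W hΔ p _)
      (N.primeFactors ∪ W.Δ.natAbs.primeFactors ∪ {p}) ?_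
    intro ℓ hℓ hℓS A hA F hF
    simp only [Finset.mem_union, Finset.mem_singleton, Nat.mem_primeFactors, not_or] at hℓS
    obtain ⟨⟨h1, h2⟩, h3⟩ := hℓS
    have hℓN : ¬ ℓ ∣ N := fun hd => h1 ⟨hℓ, hd, NeZero.ne N⟩
    have hℓg : W.IsGoodPrimeFor ℓ := fun hd =>
      h2 ⟨hℓ, Int.natCast_dvd.1 hd, Int.natAbs_ne_zero.2 hΔ⟩
    set t : CuspForm.heckeAlgebra N 2 ∅ := ⟨_, MF.heckeAt_mem hℓ (Set.notMem_empty ℓ)⟩
    obtain ⟨a, ha, ham⟩ := hcong ℓ hℓ hℓg hℓN h3
    have hres : residue B (χ t) = (W.apOfModel ℓ : ResidueField B) := by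
      have h4 := hχmem (π t - (W.apOfModel ℓ : R)) (by
        rw [AddSubgroupClass.coe_sub]
        show charZC hg t - ((W.apOfModel ℓ : R) : ZC) ∈ 𝔪
        rw [Lifting.charZC_heckeAt hg hℓ ha]
        simpa using ham)
      rw [map_sub, map_intCast, ← residue_eq_zero_iff, map_sub, map_intCast, sub_eq_zero] at h4
      exact h4
    have hcp : LinearMap.charpoly (ES.eigEnd ι χ F) = X ^ 2 - C (χ t) * X + C (ℓ : B) :=
      ES.charpoly_eigRep_frobenius ι χ hpm hℓ hℓN h3 hA hF
    rw [hρ₁, charpoly_torRepK_frobenius hΔ _ hℓ h3 hA hF,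
      EC.galoisTrace_frobenius_eq_apOfModel W hℓ hℓg h3 hA hF, hcp]
    simp only [Polynomial.map_add, Polynomial.map_sub, Polynomial.map_mul, Polynomial.map_pow,
      map_X, map_C, map_natCast, Polynomial.map_natCast, hres, map_intCast]
  -- at `q`
  obtain ⟨A, hA⟩ := GaloisBasic.exists_liesOverPrime hq
  obtain ⟨F, hF⟩ := GaloisBasic.exists_isFrobeniusAt hq hA
  have h5 := key F
  rw [hρ₁, charpoly_torRepK_frobenius hΔ _ hq hqp hA hF,
    EC.galoisTrace_frobenius_eq_apOfModel W hq hgood hqp hA hF, ES.charpoly_eigEnd ι χ hpm] at h5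
  have h6 := congrArg (fun P : (ResidueField B)[X] => P.coeff 1) h5
  simp [coeff_X_pow] at h6
  have htr := BAD.NewRep.trace_frobenius_of_new hpm ι χ hnew
    ⟨K, inferInstance, inferInstance, inferInstance, algebraMap B K, σ, hjinj, hχ⟩ hq hqN
    (fun h2 => Nat.squarefree_iff_prime_squarefree.1 hsq q hq (by rwa [← pow_two])) hqp hA hF
  have h7 : ((W.apOfModel q ^ 2 - ((q : ℤ) + 1) ^ 2 : ℤ) : ResidueField B) = 0 := by
    push_cast
    rw [← h6]
    rcases htr with h | h <;> rw [h] <;> simp only [map_add, map_neg, map_natCast, map_one] <;>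
      ring
  exact (CharP.intCast_eq_zero_iff (ResidueField B) p _).mp h7

end FermatAgent.Assembly
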